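import Fermat.Agent.S56.FO.H6.CEMain
import Fermat.Agent.S19.H435.Adapter
import Fermat.Agent.S19.Defs

/-!
# S33 / piece OLD (helper706)

Architecture: `origin/helper409:coord/S33-helper409.md`, section 3, input (OLD).

* `mem_augClosure_of_killed` : **relative CE for a subgroup killed by `p`.**  `M` carries a Hopf
  lattice over `ℤ_(p)` (NOT assumed killed by `p`), `E ≤ M` is a `G_ℚ`-stable subgroup killed by
  `p`, `p` odd.  Then `I_aug M ∩ E ≤ I_aug E`.
  (The landed `S56.FO.H6.mem_closure_of_mem_closure` is the case `p • M = 0`.)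
* `augClosure_eq_of_killed` : if moreover `E ≤ I_aug M`, then `E = I_aug E`, i.e. the
  `I_P`-coinvariants of `E` vanish.
* `augSub_eq_of_hopfModel` : the same for a `G_ℚ`-module `J` all of whose torsion groups
  `J[p ^ n]` carry Hopf models (the shape of the frozen S19), for a `G_ℚ`-stable subgroup
  `Y ≤ ⋃ₙ I_aug (J[p ^ n]) ∩ J[p]`  (`augTors p J P n = I_aug (J[p ^ n])`, `augSub P Y = I_aug Y`).
* `oldAug_of_s19 : S19HopfStatement → OldAugJZero` : (OLD) for `J₀(M')`, `p ∤ M'`, from the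
  frozen S19 in the landed form `HopfModel p (Tors M' p k) (torsAct M' p k)`.
-/

set_option autoImplicit false
set_option linter.style.haveILetI false
set_option linter.unusedSectionVars false

noncomputable section

namespace Fermat.Agent.S33.H706

open Fermat.Agent.S56

/-- **Relative CE, subgroup killed by `p`.**  For a `G_ℚ`-stable subgroup `E` killed by `p`
(`p` odd) of a module `M` with a Hopf lattice: a point of `E` in the inertia augmentation of `M`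
lies in the inertia augmentation of `E`. -/
theorem mem_augClosure_of_killed {p : ℕ} [Fact p.Prime] (hp2 : p ≠ 2) {M : Type}
    [AddCommGroup M] {act : GQ → M → M} {Λ : Subalgebra (H906.Zp p) (M → Qb)}
    (hΛ : H906.IsHL p act Λ) (P : ValuationSubring Qb)
    (hP : P.LiesOverPrime p) (E : AddSubgroup M) (hE : ∀ (σ : GQ), ∀ x ∈ E, act σ x ∈ E)
    (hpE : ∀ x ∈ E, p • x = 0) {x : M} (hxE : x ∈ E)
    (hx : x ∈ AddSubgroup.closure
      {z : M | ∃ σ ∈ P.inertiaSubgroupIn ℚ, ∃ y : M, z = act σ y - y}) :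
    x ∈ AddSubgroup.closure
      {z : M | ∃ σ ∈ P.inertiaSubgroupIn ℚ, ∃ y ∈ E, z = act σ y - y} := by
  haveI : Finite M := Fermat.Agent.S19.H435.IsHopfLattice.finite hΛ
  -- the pullback lattice on `E`
  set actE : GQ → E → E := fun σ y => ⟨act σ y, hE σ y y.2⟩ with hactE
  have hΛE := Fermat.Agent.S19.H435.IsHopfLattice.pullback hΛ E.subtype
    Subtype.val_injective actE (fun σ y => rfl)
  have hpE' : ∀ y : E, p • y = 0 := fun y => Subtype.ext (by
    rw [AddSubgroup.coe_nsmul, hpE y y.2]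
    rfl)
  have hred : ∀ f ∈ Λ.map (Fermat.Agent.S19.H435.precompAlgHom p E.subtype),
      P.valuation (f ⟨x, hxE⟩ - f 0) < 1 := by
    rintro _ ⟨f, hf, rfl⟩
    exact H906.closure_le_redKer P hΛ hP hx f hf
  have h1 := FO.H6.connEt p hp2 E actE _ hΛE hpE' P hP ⟨x, hxE⟩ hred
  -- push forward to `M`
  have h2 : ∀ y : E, y ∈ AddSubgroup.closure
      {z : E | ∃ σ ∈ P.inertiaSubgroupIn ℚ, ∃ y : E, z = actE σ y - y} →
      (y : M) ∈ AddSubgroup.closure
        {z : M | ∃ σ ∈ P.inertiaSubgroupIn ℚ, ∃ y ∈ E, z = act σ y - y} := by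
    intro y hy
    induction hy using AddSubgroup.closure_induction with
    | mem z hz =>
      obtain ⟨σ, hσ, w, rfl⟩ := hz
      exact AddSubgroup.subset_closure ⟨σ, hσ, w, w.2, rfl⟩
    | zero => exact AddSubgroup.zero_mem _
    | add a b _ _ ha hb => exact AddSubgroup.add_mem _ ha hb
    | neg a _ ha => exact AddSubgroup.neg_mem _ ha
  exact h2 ⟨x, hxE⟩ h1

/-- If `E` (stable, killed by `p`) is contained in the inertia augmentation of `M`, then `E` is
its own inertia augmentation: the `I_P`-coinvariants of `E` vanish. -/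
theorem augClosure_eq_of_killed {p : ℕ} [Fact p.Prime] (hp2 : p ≠ 2) {M : Type}
    [AddCommGroup M] {act : GQ → M → M} {Λ : Subalgebra (H906.Zp p) (M → Qb)}
    (hΛ : H906.IsHL p act Λ) (P : ValuationSubring Qb)
    (hP : P.LiesOverPrime p) (E : AddSubgroup M) (hE : ∀ (σ : GQ), ∀ x ∈ E, act σ x ∈ E)
    (hpE : ∀ x ∈ E, p • x = 0)
    (hEaug : E ≤ AddSubgroup.closure
      {z : M | ∃ σ ∈ P.inertiaSubgroupIn ℚ, ∃ y : M, z = act σ y - y}) :
    AddSubgroup.closure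
      {z : M | ∃ σ ∈ P.inertiaSubgroupIn ℚ, ∃ y ∈ E, z = act σ y - y} = E := by
  refine le_antisymm ?_ fun x hx =>
    mem_augClosure_of_killed hp2 hΛ P hP E hE hpE hx (hEaug hx)
  rw [AddSubgroup.closure_le]
  rintro z ⟨σ, -, y, hy, rfl⟩
  exact E.sub_mem (hE σ y hy) hy


section Torsion

variable {p : ℕ} {J : Type} [AddCommGroup J] [SMul GQ J]

/-- The inertia augmentation (at `P`) of the `p ^ n`-torsion of `J`: the subgroup of `J`
generated by the `σ • w - w`, `σ ∈ I_P`, `p ^ n • w = 0`. -/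
def augTors (p : ℕ) (J : Type) [AddCommGroup J] [SMul GQ J] (P : ValuationSubring Qb) (n : ℕ) :
    AddSubgroup J :=
  AddSubgroup.closure
    {z : J | ∃ σ ∈ P.inertiaSubgroupIn ℚ, ∃ w : J, (p : ℤ) ^ n • w = 0 ∧ z = σ • w - w}

/-- The inertia augmentation (at `P`) of a subgroup `Y` of `J`: the subgroup generated by the
`σ • w - w`, `σ ∈ I_P`, `w ∈ Y`. -/
def augSub (P : ValuationSubring Qb) (Y : AddSubgroup J) : AddSubgroup J :=
  AddSubgroup.closure {z : J | ∃ σ ∈ P.inertiaSubgroupIn ℚ, ∃ w ∈ Y, z = σ • w - w}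

theorem augSub_le (P : ValuationSubring Qb) (Y : AddSubgroup J)
    (hY : ∀ (σ : GQ), ∀ y ∈ Y, σ • y ∈ Y) : augSub P Y ≤ Y := by
  unfold augSub
  rw [AddSubgroup.closure_le]
  rintro z ⟨σ, -, w, hw, rfl⟩
  exact Y.sub_mem (hY σ w hw) hw

theorem augSub_mono (P : ValuationSubring Qb) {Y Y' : AddSubgroup J} (h : Y ≤ Y') :
    augSub P Y ≤ augSub P Y' := by
  unfold augSub
  refine AddSubgroup.closure_mono ?_
  rintro z ⟨σ, hσ, w, hw, rfl⟩
  exact ⟨σ, hσ, w, h hw, rfl⟩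

/-- **(OLD), pointwise.**  `J` a `G_ℚ`-module whose torsion group `J[p ^ n]` carries a Hopf model
(for the restricted action), `p` odd, `P | p`.  If `Y ≤ J` is a `G_ℚ`-stable subgroup killed by
`p` and `y ∈ Y` lies in the inertia augmentation of `J[p ^ n]`, then `y` lies in the inertia
augmentation of `Y`. -/
theorem mem_augSub_of_mem_augTors [Fact p.Prime] (hp2 : p ≠ 2) (n : ℕ)
    (act : GQ → ↥(Submodule.torsionBy ℤ J ((p : ℤ) ^ n)) →
      ↥(Submodule.torsionBy ℤ J ((p : ℤ) ^ n)))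
    (hact : ∀ σ m, ((act σ m : ↥(Submodule.torsionBy ℤ J ((p : ℤ) ^ n))) : J) = σ • (m : J))
    (hJ : Fermat.Agent.S19.HopfModel p ↥(Submodule.torsionBy ℤ J ((p : ℤ) ^ n)) act)
    (P : ValuationSubring Qb) (hP : P.LiesOverPrime p)
    (Y : AddSubgroup J) (hY : ∀ (σ : GQ), ∀ y ∈ Y, σ • y ∈ Y) (hpY : ∀ y ∈ Y, p • y = 0)
    {y : J} (hyY : y ∈ Y) (hy : y ∈ augTors p J P n) : y ∈ augSub P Y := by
  obtain ⟨Λ, hΛ⟩ := Fermat.Agent.S19.H435.exists_isHopfLattice_of_hopfModel hJ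
  -- the subgroup `E = Y ∩ J[p ^ n]` of `M = J[p ^ n]`
  let ι : ↥(Submodule.torsionBy ℤ J ((p : ℤ) ^ n)) →+ J :=
    (Submodule.torsionBy ℤ J ((p : ℤ) ^ n)).subtype.toAddMonoidHom
  let E : AddSubgroup ↥(Submodule.torsionBy ℤ J ((p : ℤ) ^ n)) := Y.comap ι
  have hEmem : ∀ x : ↥(Submodule.torsionBy ℤ J ((p : ℤ) ^ n)), x ∈ E ↔ (x : J) ∈ Y :=
    fun _ => Iff.rfl
  have hE : ∀ (σ : GQ), ∀ x ∈ E, act σ x ∈ E := by
    intro σ x hx
    rw [hEmem, hact]
    exact hY σ _ ((hEmem x).mp hx)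
  have hpE : ∀ x ∈ E, p • x = 0 := by
    intro x hx
    apply Subtype.ext
    have h := hpY _ ((hEmem x).mp hx)
    rw [Submodule.coe_smul_of_tower, h]
    rfl
  -- lift `y` to `M`, inside the augmentation of `M`
  have hlift : ∀ z : J, z ∈ augTors p J P n →
      ∃ x : ↥(Submodule.torsionBy ℤ J ((p : ℤ) ^ n)), (x : J) = z ∧ x ∈ AddSubgroup.closure
        {z : ↥(Submodule.torsionBy ℤ J ((p : ℤ) ^ n)) |
          ∃ σ ∈ P.inertiaSubgroupIn ℚ, ∃ y, z = act σ y - y} := by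
    intro z hz
    unfold augTors at hz
    induction hz using AddSubgroup.closure_induction with
    | mem z hz =>
      obtain ⟨σ, hσ, w, hw, rfl⟩ := hz
      have hwM : w ∈ Submodule.torsionBy ℤ J ((p : ℤ) ^ n) :=
        (Submodule.mem_torsionBy_iff _ _).mpr hw
      refine ⟨act σ ⟨w, hwM⟩ - ⟨w, hwM⟩, ?_, AddSubgroup.subset_closure ⟨σ, hσ, ⟨w, hwM⟩, rfl⟩⟩
      rw [AddSubgroupClass.coe_sub, hact]
    | zero => exact ⟨0, rfl, AddSubgroup.zero_mem _⟩
    | add a b _ _ ha hb =>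
      obtain ⟨xa, rfl, hxa⟩ := ha
      obtain ⟨xb, rfl, hxb⟩ := hb
      exact ⟨xa + xb, rfl, AddSubgroup.add_mem _ hxa hxb⟩
    | neg a _ ha =>
      obtain ⟨xa, rfl, hxa⟩ := ha
      exact ⟨-xa, rfl, AddSubgroup.neg_mem _ hxa⟩
  obtain ⟨x, rfl, hx⟩ := hlift y hy
  have hxE : x ∈ E := (hEmem x).mpr hyY
  have h1 := mem_augClosure_of_killed hp2 hΛ P hP E hE hpE hxE hx
  -- push forward to `J`
  have h2 : ∀ x : ↥(Submodule.torsionBy ℤ J ((p : ℤ) ^ n)), x ∈ AddSubgroup.closure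
      {z : ↥(Submodule.torsionBy ℤ J ((p : ℤ) ^ n)) |
        ∃ σ ∈ P.inertiaSubgroupIn ℚ, ∃ y ∈ E, z = act σ y - y} →
      (x : J) ∈ augSub P Y := by
    intro x hx
    induction hx using AddSubgroup.closure_induction with
    | mem z hz =>
      obtain ⟨σ, hσ, w, hw, rfl⟩ := hz
      refine AddSubgroup.subset_closure ⟨σ, hσ, (w : J), (hEmem w).mp hw, ?_⟩
      rw [AddSubgroupClass.coe_sub, hact]
    | zero => exact AddSubgroup.zero_mem _
    | add a b _ _ ha hb => exact AddSubgroup.add_mem _ ha hb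
    | neg a _ ha => exact AddSubgroup.neg_mem _ ha
  exact h2 x h1

/-- **(OLD).**  `J` a `G_ℚ`-module all of whose torsion groups `J[p ^ n]` carry Hopf models
(frozen S19 shape), `p` odd, `P | p`.  Every `G_ℚ`-stable subgroup
`Y ≤ ⋃ₙ I_aug (J[p ^ n]) ∩ J[p]` is its own inertia augmentation: `Y_I = 0`. -/
theorem augSub_eq_of_hopfModel [Fact p.Prime] (hp2 : p ≠ 2)
    (hJ : ∀ n : ℕ, ∃ act : GQ → ↥(Submodule.torsionBy ℤ J ((p : ℤ) ^ n)) →
        ↥(Submodule.torsionBy ℤ J ((p : ℤ) ^ n)),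
      (∀ σ m, ((act σ m : ↥(Submodule.torsionBy ℤ J ((p : ℤ) ^ n))) : J) = σ • (m : J)) ∧
        Fermat.Agent.S19.HopfModel p ↥(Submodule.torsionBy ℤ J ((p : ℤ) ^ n)) act)
    (P : ValuationSubring Qb) (hP : P.LiesOverPrime p)
    (Y : AddSubgroup J) (hY : ∀ (σ : GQ), ∀ y ∈ Y, σ • y ∈ Y) (hpY : ∀ y ∈ Y, p • y = 0)
    (hYaug : ∀ y ∈ Y, ∃ n : ℕ, y ∈ augTors p J P n) : augSub P Y = Y := by
  refine le_antisymm (augSub_le P Y hY) fun y hy => ?_
  obtain ⟨n, hn⟩ := hYaug y hy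
  obtain ⟨act, hact, hmodel⟩ := hJ n
  exact mem_augSub_of_mem_augTors hp2 n act hact hmodel P hP Y hY hpY hy hn

end Torsion

section JZero

open Fermat.Agent.S19 (HopfModel Tors torsAct)

/-- The frozen S19, in the landed `HopfModel` form (cf. `S19.frozen_of_hopfModel`). -/
def S19HopfStatement : Prop :=
  ∀ (N : ℕ) [NeZero N] (ℓ : ℕ) [Fact ℓ.Prime], ¬ ℓ ∣ N → ∀ k : ℕ,
    HopfModel ℓ (Tors N ℓ k) (torsAct N ℓ k)

/-- **(OLD)** for one level `M'`, from Hopf models on the `p`-power torsion of `J₀(M')`. -/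
theorem augSub_eq_jZero {p : ℕ} [Fact p.Prime] (hp2 : p ≠ 2) (M' : ℕ) [NeZero M']
    (hS19 : ∀ k : ℕ, HopfModel p (Tors M' p k) (torsAct M' p k))
    (P : ValuationSubring Qb) (hP : P.LiesOverPrime p)
    (Y : AddSubgroup (ModularCurve.JZero M')) (hY : ∀ (σ : GQ), ∀ y ∈ Y, σ • y ∈ Y)
    (hpY : ∀ y ∈ Y, p • y = 0)
    (hYaug : ∀ y ∈ Y, ∃ n : ℕ, y ∈ augTors p (ModularCurve.JZero M') P n) :
    augSub P Y = Y :=
  augSub_eq_of_hopfModel hp2 (fun n => ⟨torsAct M' p n, fun _ _ => rfl, hS19 n⟩) P hP Y hY hpY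
    hYaug

/-- **(OLD)**, as a `Prop`: at a level `M'` prime to the odd prime `p`, a `G_ℚ`-stable subgroup
of `J₀(M')[p]` contained in `⋃ₙ I_aug (J₀(M')[p ^ n])` has trivial `I_P`-coinvariants. -/
def OldAugJZero : Prop :=
  ∀ (p : ℕ) [Fact p.Prime], p ≠ 2 → ∀ (M' : ℕ) [NeZero M'], ¬ p ∣ M' →
    ∀ (P : ValuationSubring Qb), P.LiesOverPrime p →
    ∀ (Y : AddSubgroup (ModularCurve.JZero M')), (∀ (σ : GQ), ∀ y ∈ Y, σ • y ∈ Y) →
      (∀ y ∈ Y, p • y = 0) →
      (∀ y ∈ Y, ∃ n : ℕ, y ∈ augTors p (ModularCurve.JZero M') P n) →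
      augSub P Y = Y

/-- **(OLD)** from the frozen S19. -/
theorem oldAug_of_s19 (hS19 : S19HopfStatement) : OldAugJZero :=
  fun p _ hp2 M' _ hpM' P hP Y hY hpY hYaug =>
    augSub_eq_jZero hp2 M' (fun k => hS19 M' p hpM' k) P hP Y hY hpY hYaug

end JZero

end Fermat.Agent.S33.H706

end
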