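import Fermat.Agent.S33.Spec2
import Fermat.Agent.S33.H706.Old
import Fermat.Agent.S19.H135.Closure
import Fermat.Agent.S19

/-!
# S33 / piece OLD in the frozen shape of `S33/Spec2.lean`, UNCONDITIONAL (helper706)

* `oldAugStatement_of_s19 : S19HopfStatement → S33.OldAugStatement`  (adapter: `iAug`/`torsSub`
  vocabulary of `Spec2` ↔ `augSub`/`augTors` of `H706/Old.lean`);
* `s19HopfStatement : S19HopfStatement`  from the landed `Fermat.Agent.S19.result`;
* **`oldAugStatement : S33.OldAugStatement`**.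
-/

set_option autoImplicit false

noncomputable section

namespace Fermat.Agent.S33.H706

open Fermat.Agent.S56

/-- The frozen S19 (landed on main) in the Hopf-model form. -/
theorem s19HopfStatement : S19HopfStatement := fun N _ ℓ _ hℓN k =>
  Fermat.Agent.S19.H135.hopfModel_of_frozenShape N ℓ k (Fermat.Agent.S19.result N ℓ hℓN k)

/-- `iAug` of `Spec2` is `augSub`. -/
theorem iAug_eq_augSub {J : Type} [AddCommGroup J] [DistribMulAction GQ J]
    (P : ValuationSubring Qb) (Y : AddSubgroup J) :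
    Fermat.Agent.S33.iAug (P.inertiaSubgroupIn ℚ) Y = augSub P Y := rfl

/-- `iAug` of the `p ^ n`-torsion is `augTors`. -/
theorem iAug_torsSub_eq_augTors {J : Type} [AddCommGroup J] [DistribMulAction GQ J]
    (p : ℕ) (P : ValuationSubring Qb) (n : ℕ) :
    Fermat.Agent.S33.iAug (P.inertiaSubgroupIn ℚ) (Fermat.Agent.S33.torsSub J (p ^ n)) =
      augTors p J P n := by
  unfold Fermat.Agent.S33.iAug augTors
  congr 1
  ext z
  have key : ∀ w : J, w ∈ Fermat.Agent.S33.torsSub J (p ^ n) ↔ (p : ℤ) ^ n • w = 0 := by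
    intro w
    unfold Fermat.Agent.S33.torsSub
    rw [AddMonoidHom.mem_ker, nsmulAddMonoidHom_apply, ← natCast_zsmul]
    push_cast
    rfl
  constructor
  · rintro ⟨σ, hσ, w, hw, rfl⟩
    exact ⟨σ, hσ, w, (key w).mp hw, rfl⟩
  · rintro ⟨σ, hσ, w, hw, rfl⟩
    exact ⟨σ, hσ, w, (key w).mpr hw, rfl⟩

/-- **(OLD)** in the frozen `Spec2` shape, from the frozen S19. -/
theorem oldAugStatement_of_s19 (hS19 : S19HopfStatement) : Fermat.Agent.S33.OldAugStatement := by
  intro p M' _ hp hp2 hpM' P hP Y hYG hY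
  haveI : Fact p.Prime := ⟨hp⟩
  have h := oldAug_of_s19 hS19 p hp2 M' hpM' P hP Y hYG (fun y hy => (hY y hy).1)
    (fun y hy => by
      obtain ⟨n, hn⟩ := (hY y hy).2
      exact ⟨n, by rw [← iAug_torsSub_eq_augTors]; exact hn⟩)
  rw [iAug_eq_augSub, h]

/-- **(OLD)**, frozen `Spec2` shape, unconditional. -/
theorem oldAugStatement : Fermat.Agent.S33.OldAugStatement :=
  oldAugStatement_of_s19 s19HopfStatement

end Fermat.Agent.S33.H706

end
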